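import Fermat.Agent.S37.H576.RedGraph
import Fermat.Agent.S37.Core.Leaves
import Fermat.Agent.S37.H280.IntQ

/-!
# S37 / D3 (helper576), part 2: `LiftAtLevel` from ONE good model

For a good model `(Ec M E, Fc M E, Rc M A E, V, w)` with coordinate `y` (`V = VcSet M A E`), an
integral model `Y ∈ A((q))` of `y`, and (D2) `NormalAbsStatement`:
`Red.H759.LiftAtLevel A M E y Ȳ`.
-/

set_option autoImplicit false
set_option synthInstance.maxHeartbeats 400000

noncomputable section

namespace Fermat.Agent.S37.H576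

open ModularCurve AlgebraicCurve HahnSeries IsLocalRing Polynomial
open Fermat.Agent.S18 Fermat.Agent.S18.Mod Fermat.Agent.S18.H576
open Fermat.Agent.S37.Red

variable {M : ℕ} {A : ValuationSubring Qb} {E : IntermediateField ℚ Qb}

/-! ## constants -/

theorem coe_iota_eq_incA (a : A) :
    ((iota M (a : Qb) : Om M) : LaurentSeries Qb) = incA A (HahnSeries.single 0 a) := by
  rw [coe_iota_single, coeffMap_single]
  rfl

theorem redA_single (a : A) :
    redA A (HahnSeries.single 0 a) =
      algebraMap (ResidueField A) (LaurentSeries (ResidueField A)) (residue A a) := by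
  rw [coeffMap_single, algebraMap_laurentSeries_eq_single]

theorem isRed_const {a : A} (ha : (a : Qb) ∈ E) :
    IsRed M A E (iota M (a : Qb))
      (algebraMap (ResidueField A) (LaurentSeries (ResidueField A)) (residue A a)) := by
  rw [← redA_single]
  exact isRed_of_series (Ec_le_Fc (iota_mem_Ec ha)) _ (coe_iota_eq_incA a)

theorem isRed_jd [NeZero M] (d : ℕ) [NeZero d] (hd : d ∣ M) :
    IsRed M A E (jd M d hd) (qExpand (ResidueField A) d (jqModC (ResidueField A))) := by
  have h1 : ((jd M d hd : Om M) : LaurentSeries Qb) = incA A (jqNModC A d) := by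
    show coeffEmb Qb (qExpand ℚ d jq) = coeffMap A.subtype (jqNModC A d)
    rw [coeffMap_jqNModC]
    show coeffMap (algebraMap ℚ Qb) (jqNModC ℚ d) = _
    rw [coeffMap_jqNModC]
  have h2 : redA A (jqNModC A d) = qExpand (ResidueField A) d (jqModC (ResidueField A)) := by
    show coeffMap (residue A) (jqNModC A d) = _
    rw [coeffMap_jqNModC]
    rfl
  rw [← h2]
  exact isRed_of_series (Subfield.subset_closure (Or.inr ⟨d, inferInstance, hd, rfl⟩)) _ h1

/-- **surjectivity of the reduction** onto `κ_E(j̄_d : d ∣ M)` -/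
theorem exists_isRed_of_mem_closure [NeZero M] {c : LaurentSeries (ResidueField A)}
    (hc : c ∈ Subfield.closure (H759.constk A E ∪ divisorExpansionsC (ResidueField A) M)) :
    ∃ f : Om M, IsRed M A E f c := by
  induction hc using Subfield.closure_induction with
  | mem z hz =>
      rcases hz with ⟨a, ha, rfl⟩ | ⟨d, hd, hdM, rfl⟩
      · exact ⟨_, isRed_const ha⟩
      · exact ⟨_, isRed_jd d hdM⟩
  | one => exact ⟨1, (redGraph M A E).one_mem⟩
  | add z z' _ _ hz hz' =>
      obtain ⟨f, hf⟩ := hz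
      obtain ⟨g, hg⟩ := hz'
      exact ⟨f + g, (redGraph M A E).add_mem (x := (f, z)) (y := (g, z')) hf hg⟩
  | neg z _ hz =>
      obtain ⟨f, hf⟩ := hz
      exact ⟨-f, (redGraph M A E).neg_mem (x := (f, z)) hf⟩
  | inv z _ hz =>
      obtain ⟨f, hf⟩ := hz
      by_cases hz0 : z = 0
      · subst hz0
        rw [inv_zero]
        exact ⟨0, (redGraph M A E).zero_mem⟩
      · exact ⟨f⁻¹, isRed_inv hf hz0⟩
  | mul z z' _ _ hz hz' =>
      obtain ⟨f, hf⟩ := hz
      obtain ⟨g, hg⟩ := hz'
      exact ⟨f * g, (redGraph M A E).mul_mem (x := (f, z)) (y := (g, z')) hf hg⟩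

/-! ## the polynomial graph -/

/-- the subring of `Ω × k((q))` generated by the constants from `A ∩ E` and `(y, s)` -/
def polyGraph (M : ℕ) (A : ValuationSubring Qb) (E : IntermediateField ℚ Qb) (y : Om M)
    (s : LaurentSeries (ResidueField A)) : Subring (Om M × LaurentSeries (ResidueField A)) :=
  Subring.closure ({p | ∃ a : A, (a : Qb) ∈ E ∧ p = (iota M (a : Qb),
    algebraMap (ResidueField A) (LaurentSeries (ResidueField A)) (residue A a))} ∪ {(y, s)})

theorem polyGraph_le_redGraph {y : Om M} (hyF : y ∈ Fc M E) (Y : LaurentSeries A)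
    (hyY : (y : LaurentSeries Qb) = incA A Y) :
    polyGraph M A E y (redA A Y) ≤ redGraph M A E := by
  unfold polyGraph
  rw [Subring.closure_le]
  rintro p (⟨a, ha, rfl⟩ | hp)
  · exact isRed_const ha
  · rw [Set.mem_singleton_iff] at hp
    subst hp
    exact isRed_of_series hyF Y hyY

theorem fst_mem_polyRing_of_mem_polyGraph {y : Om M} {s : LaurentSeries (ResidueField A)}
    {p : Om M × LaurentSeries (ResidueField A)} (hp : p ∈ polyGraph M A E y s) :
    p.1 ∈ Alg.polyRing (Rc M A E) y := by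
  have hle : polyGraph M A E y s ≤
      (Alg.polyRing (Rc M A E) y).comap (RingHom.fst _ _) := by
    unfold polyGraph
    rw [Subring.closure_le]
    rintro p (⟨a, ha, rfl⟩ | hp)
    · exact Subring.subset_closure (Or.inl (iota_mem_Rc a.2 ha))
    · rw [Set.mem_singleton_iff] at hp
      subst hp
      exact Subring.subset_closure (Or.inr rfl)
  exact hle hp

theorem exists_polyGraph_of_mem_closure {y : Om M} {s : LaurentSeries (ResidueField A)}
    {a : LaurentSeries (ResidueField A)} (ha : a ∈ Subring.closure (H759.constk A E ∪ {s})) :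
    ∃ p : polyGraph M A E y s, (p : Om M × LaurentSeries (ResidueField A)).2 = a := by
  have hle : Subring.closure (H759.constk A E ∪ {s}) ≤
      (polyGraph M A E y s).map (RingHom.snd _ _) := by
    rw [Subring.closure_le]
    rintro z (⟨a, ha, rfl⟩ | hz)
    · exact ⟨_, Subring.subset_closure (Or.inl ⟨a, ha, rfl⟩), rfl⟩
    · rw [Set.mem_singleton_iff] at hz
      subst hz
      exact ⟨(y, z), Subring.subset_closure (Or.inr rfl), rfl⟩
  obtain ⟨p, hp, hpa⟩ := hle ha
  exact ⟨⟨p, hp⟩, hpa⟩

/-- lifting an integrality equation over `κ_E[s]` to the polynomial graph -/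
theorem exists_monic_polyGraph {y : Om M} {s c : LaurentSeries (ResidueField A)}
    (hint : IsIntegral (Subring.closure (H759.constk A E ∪ {s})) c) :
    ∃ P : Polynomial (polyGraph M A E y s), P.Monic ∧
      (P.map ((RingHom.snd _ _).comp (polyGraph M A E y s).subtype)).eval c = 0 := by
  rw [H759.isIntegral_subring_iff] at hint
  obtain ⟨P₀, hP₀, hcoef, hev⟩ := hint
  have hlift : P₀ ∈ Polynomial.lifts
      ((RingHom.snd (Om M) (LaurentSeries (ResidueField A))).comp
        (polyGraph M A E y s).subtype) := by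
    rw [Polynomial.lifts_iff_coeff_lifts]
    intro n
    obtain ⟨p, hp⟩ := exists_polyGraph_of_mem_closure (M := M) (y := y) (hcoef n)
    exact ⟨p, hp⟩
  obtain ⟨P, hP, -, hPm⟩ := Polynomial.lifts_and_natDegree_eq_and_monic hlift hP₀
  exact ⟨P, hPm, by rw [hP]; exact hev⟩

/-- evaluation of a polynomial over the polynomial graph at a point of the graph -/
theorem isRed_eval {y : Om M} (hyF : y ∈ Fc M E) (Y : LaurentSeries A)
    (hyY : (y : LaurentSeries Qb) = incA A Y) (P : Polynomial (polyGraph M A E y (redA A Y)))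
    {f : Om M} {c : LaurentSeries (ResidueField A)} (hfc : IsRed M A E f c) :
    IsRed M A E
      ((P.map ((RingHom.fst _ _).comp (polyGraph M A E y (redA A Y)).subtype)).eval f)
      ((P.map ((RingHom.snd _ _).comp (polyGraph M A E y (redA A Y)).subtype)).eval c) := by
  have hle : polyGraph M A E y (redA A Y) ≤ redGraph M A E := polyGraph_le_redGraph hyF Y hyY
  obtain ⟨z, hz⟩ : ∃ z : redGraph M A E,
      z = (P.map (Subring.inclusion hle)).eval ⟨(f, c), hfc⟩ := ⟨_, rfl⟩
  have h1 : ((RingHom.fst _ _).comp (redGraph M A E).subtype) z =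
      (P.map ((RingHom.fst _ _).comp (polyGraph M A E y (redA A Y)).subtype)).eval f := by
    rw [hz, Polynomial.eval_map, Polynomial.hom_eval₂, Polynomial.eval_map]
    rfl
  have h2 : ((RingHom.snd _ _).comp (redGraph M A E).subtype) z =
      (P.map ((RingHom.snd _ _).comp (polyGraph M A E y (redA A Y)).subtype)).eval c := by
    rw [hz, Polynomial.eval_map, Polynomial.hom_eval₂, Polynomial.eval_map]
    rfl
  have hzr : IsRed M A E (z : Om M × LaurentSeries (ResidueField A)).1
      (z : Om M × LaurentSeries (ResidueField A)).2 := z.2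
  rw [← h1, ← h2]
  exact hzr

/-! ## the uniformiser -/

theorem isRed_of_mem_Rc_of_inv_not_mem {w : Om M} (hw : w ∈ Rc M A E)
    (hinv : w⁻¹ ∉ Rc M A E) : IsRed M A E w 0 := by
  obtain ⟨a, haA, haE, rfl⟩ := mem_Rc_iff.mp hw
  have hnu : ¬ IsUnit (⟨a, haA⟩ : A) := by
    intro hu
    apply hinv
    obtain ⟨b, hb⟩ := isUnit_iff_exists_inv.mp hu
    have h1 : a * (b : Qb) = 1 := congrArg (fun t : A => (t : Qb)) hb
    have h2 : a⁻¹ = (b : Qb) := inv_eq_of_mul_eq_one_right h1
    rw [← map_inv₀, h2]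
    refine iota_mem_Rc b.2 ?_
    rw [← h2]
    exact inv_mem haE
  have hres : residue A ⟨a, haA⟩ = 0 := by
    rw [IsLocalRing.residue_eq_zero_iff, IsLocalRing.mem_maximalIdeal, mem_nonunits_iff]
    exact hnu
  have := isRed_const (M := M) (A := A) (E := E) (a := ⟨a, haA⟩) haE
  rwa [hres, map_zero] at this

/-! ## integral series and `Ω` -/

/-- the ring of `A`-integral series lying in `F_M` -/
def intSer (M : ℕ) (A : ValuationSubring Qb) : Subring (LaurentSeries A) :=
  (modularFunctionFieldBar M).toSubfield.toSubring.comap (incA A)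

/-- `intSer → Ω` -/
def intSerHom (M : ℕ) (A : ValuationSubring Qb) : intSer M A →+* Om M where
  toFun U := ⟨incA A (U : LaurentSeries A), U.2⟩
  map_one' := Subtype.ext (by simp)
  map_mul' x y := Subtype.ext (by simp)
  map_zero' := Subtype.ext (by simp)
  map_add' x y := Subtype.ext (by simp)

theorem coe_intSerHom (U : intSer M A) :
    ((intSerHom M A U : Om M) : LaurentSeries Qb) = incA A (U : LaurentSeries A) := rfl

theorem polyRing_le_range {y : Om M} (Y : LaurentSeries A)
    (hyY : (y : LaurentSeries Qb) = incA A Y) :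
    Alg.polyRing (Rc M A E) y ≤ (intSerHom M A).range := by
  unfold Alg.polyRing
  rw [Subring.closure_le]
  rintro r (hr | hr)
  · obtain ⟨a, haA, -, rfl⟩ := mem_Rc_iff.mp hr
    have hmem : HahnSeries.single 0 (⟨a, haA⟩ : A) ∈ intSer M A := by
      show incA A (HahnSeries.single 0 (⟨a, haA⟩ : A)) ∈ modularFunctionFieldBar M
      rw [← coe_iota_eq_incA (M := M) ⟨a, haA⟩]
      exact (iota M a).2
    exact ⟨⟨_, hmem⟩, Subtype.ext (coe_iota_eq_incA (M := M) ⟨a, haA⟩).symm⟩
  · rw [Set.mem_singleton_iff] at hr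
    subst hr
    have hmem : Y ∈ intSer M A := by
      show incA A Y ∈ modularFunctionFieldBar M
      rw [← hyY]
      exact r.2
    exact ⟨⟨Y, hmem⟩, Subtype.ext hyY.symm⟩

theorem polyRing_le_comap {y : Om M} :
    Alg.polyRing (Rc M A E) y ≤
      (Subring.closure (H759.constAll A ∪ {(y : LaurentSeries Qb)})).comap (valOm M) := by
  unfold Alg.polyRing
  rw [Subring.closure_le]
  rintro r (hr | hr)
  · obtain ⟨a, haA, -, rfl⟩ := mem_Rc_iff.mp hr
    exact Subring.subset_closure (Or.inl ⟨⟨a, haA⟩, rfl⟩)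
  · rw [Set.mem_singleton_iff] at hr
    subst hr
    exact Subring.subset_closure (Or.inr rfl)

/-- an element of the chart is an `A`-integral series (INT-Q of helper280), integral over
`A[y]` as a series -/
theorem exists_series_of_mem_chart [NeZero M] {ℓ : ℕ} (hℓ : ℓ ≠ 0) (hA : A.LiesOverPrime ℓ)
    {y : Om M} (Y : LaurentSeries A) (hyY : (y : LaurentSeries Qb) = incA A Y)
    {b : Om M} (hb : b ∈ Alg.chart (Fc M E) (Rc M A E) y) :
    ∃ U : LaurentSeries A, incA A U = (b : LaurentSeries Qb) ∧
      IsIntegral (Subring.closure (H759.constAll A ∪ {(y : LaurentSeries Qb)}))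
        (b : LaurentSeries Qb) := by
  obtain ⟨-, hint⟩ := hb
  rw [H759.isIntegral_subring_iff] at hint
  obtain ⟨P₁, hP₁, hcoef, hev⟩ := hint
  -- integrality as a series
  have hint2 : IsIntegral (Subring.closure (H759.constAll A ∪ {(y : LaurentSeries Qb)}))
      (b : LaurentSeries Qb) := by
    rw [H759.isIntegral_subring_iff]
    refine ⟨P₁.map (valOm M), hP₁.map _, fun i => ?_, ?_⟩
    · rw [Polynomial.coeff_map]
      exact polyRing_le_comap (E := E) (hcoef i)
    · have : (P₁.map (valOm M)).eval (valOm M b) = valOm M (P₁.eval b) := by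
        rw [Polynomial.eval_map, Polynomial.eval₂_at_apply]
      rw [← valOm_apply, this, hev, map_zero]
  -- the integrality equation over `A((q))`
  have hlift : P₁ ∈ Polynomial.lifts (intSerHom M A) := by
    rw [Polynomial.lifts_iff_coeff_lifts]
    intro n
    exact polyRing_le_range (E := E) Y hyY (hcoef n)
  obtain ⟨P₃, hP₃, -, hP₃m⟩ := Polynomial.lifts_and_natDegree_eq_and_monic hlift hP₁
  have hcomp : (incA A).comp (intSer M A).subtype = (valOm M).comp (intSerHom M A) := by
    ext U : 1
    rfl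
  have hpf : (P₃.map (intSer M A).subtype).eval₂ (coeffMap A.subtype) (b : LaurentSeries Qb)
      = 0 := by
    rw [Polynomial.eval₂_map]
    show P₃.eval₂ ((incA A).comp (intSer M A).subtype) (valOm M b) = 0
    rw [hcomp, ← Polynomial.hom_eval₂, ← Polynomial.eval_map, hP₃, hev, map_zero]
  obtain ⟨U, hU⟩ := H280.IntQ.intQ A hℓ hA M (b : LaurentSeries Qb) b.2
    (P₃.map (intSer M A).subtype) (hP₃m.map _) (fun i => by
      rw [Polynomial.coeff_map]
      exact (P₃.coeff i).2) hpf
  exact ⟨U, hU, hint2⟩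

/-- **(H3) from one good model**: for a good model over `E` with Gauss ring `VcSet M A E` and
coordinate `y` with integral model `Y ∈ A((q))`, every element of `κ_E(j̄_d)` integral over
`κ_E[Ȳ]` lifts to an `A`-integral series in `F_M` integral over `A[y]`. -/
theorem liftAtLevel_of_goodModel [NeZero M] {ℓ : ℕ} (hℓ : ℓ ≠ 0) (hA : A.LiesOverPrime ℓ)
    {V : Subring (Om M)} {w y : Om M} {S : Finset (Om M)}
    (hG : Alg.GoodModel (Lc M) (Ec M E) (Fc M E) (Rc M A E) V w y S)
    (hV : (V : Set (Om M)) = VcSet M A E) (hnorm : Core.NormalAbsStatement)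
    (Y : LaurentSeries A) (hyY : (y : LaurentSeries Qb) = incA A Y) :
    H759.LiftAtLevel A M E (y : LaurentSeries Qb) (redA A Y) := by
  intro c hc hint
  have hmemV : ∀ g : Om M, g ∈ V ↔ g ∈ VcSet M A E := fun g => by
    rw [← hV]
    rfl
  -- a preimage of `c` in the Gauss ring
  obtain ⟨f, hfc⟩ := exists_isRed_of_mem_closure (M := M) hc
  have hfV : f ∈ V := (hmemV f).mpr (mem_VcSet_of_isRed hfc)
  -- lift the integrality equation
  obtain ⟨PΓ, hPΓ, hPΓc⟩ := exists_monic_polyGraph (M := M) (y := y) hint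
  have hP0 := isRed_eval hG.x_mem Y hyY PΓ hfc
  rw [hPΓc] at hP0
  obtain ⟨P, hPdef⟩ : ∃ P : Polynomial (Om M),
      P = PΓ.map ((RingHom.fst _ _).comp (polyGraph M A E y (redA A Y)).subtype) := ⟨_, rfl⟩
  rw [← hPdef] at hP0
  have hPm : P.Monic := by
    rw [hPdef]
    exact hPΓ.map _
  have hPcoef : ∀ i, P.coeff i ∈ Alg.polyRing (Rc M A E) y := fun i => by
    rw [hPdef, Polynomial.coeff_map]
    exact fst_mem_polyRing_of_mem_polyGraph (PΓ.coeff i).2
  have hPV : P.eval f ∈ V := (hmemV _).mpr (mem_VcSet_of_isRed hP0)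
  have hPw : P.eval f * w⁻¹ ∈ V := by
    by_cases h0 : P.eval f = 0
    · rw [h0, zero_mul]
      exact zero_mem V
    · refine hG.V_gen _ hPV ?_
      rw [hmemV]
      exact inv_not_mem_VcSet_of_isRed_zero h0 hP0
  -- normality
  obtain ⟨b, hb, hfb⟩ := hnorm (Om M) (Lc M) (Ec M E) (Fc M E) (Rc M A E) V w y S hG f hfV P hPm
    hPcoef hPw
  -- `b` reduces to `c`
  obtain ⟨d, hd⟩ := exists_isRed_of_mem_VcSet ((hmemV _).mp hfb)
  have hw0 : IsRed M A E w 0 := isRed_of_mem_Rc_of_inv_not_mem hG.w_mem hG.w_inv_not_mem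
  have hbeq : b = f - w * ((f - b) * w⁻¹) := by
    rw [mul_comm (f - b), ← mul_assoc, mul_inv_cancel₀ hG.w_ne_zero, one_mul]
    ring
  have hbc : IsRed M A E b c := by
    have h1 : IsRed M A E (f - w * ((f - b) * w⁻¹)) (c - 0 * d) :=
      (redGraph M A E).sub_mem (x := (f, c)) (y := (w * ((f - b) * w⁻¹), 0 * d)) hfc
        ((redGraph M A E).mul_mem (x := (w, 0)) (y := ((f - b) * w⁻¹, d)) hw0 hd)
    rw [← hbeq, zero_mul, sub_zero] at h1
    exact h1
  -- `b` is an integral series
  obtain ⟨U, hU, hUint⟩ := exists_series_of_mem_chart (E := E) hℓ hA Y hyY hb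
  refine ⟨U, ?_, ?_, ?_⟩
  · show incA A U ∈ modularFunctionFieldBar M
    rw [hU]
    exact b.2
  · show IsIntegral _ (incA A U)
    rw [hU]
    exact hUint
  · exact isRed_unique (isRed_of_series hb.1 U hU.symm) hbc

theorem liftAtLevel_mono {E E' : IntermediateField ℚ Qb} (h : E ≤ E') {t : LaurentSeries Qb}
    {s : LaurentSeries (ResidueField A)} (H : H759.LiftAtLevel A M E' t s) :
    H759.LiftAtLevel A M E t s := by
  have hk : H759.constk A E ⊆ H759.constk A E' := by
    rintro c ⟨a, ha, rfl⟩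
    exact ⟨a, h ha, rfl⟩
  intro c hc hint
  exact H c (Subfield.closure_mono (Set.union_subset_union_left _ hk) hc)
    (H759.isIntegral_subring_mono (Subring.closure_mono (Set.union_subset_union_left _ hk)) hint)

end Fermat.Agent.S37.H576
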