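import Fermat.Agent.S37.H576.LiftCore
import Fermat.Agent.S18.H425.GoodModelInv

/-!
# S37 / D3 (helper576): `Core.LiftLeaf`

`liftLeaf : Fermat.Agent.S37.Core.LiftLeaf` — (H3) at every number-field level, on both charts,
from the good models of row S18 (`Mod.GoodModelStatement`) and (D2) `NormalAbsStatement`.

Proof: enlarge `E` to a member `E'` of the family (`LiftAtLevel` is antitone in `E`); for the
good model over `E'` (coordinate `x` resp. `x⁻¹`, `S18.H425.goodModel_inv`) apply
`liftAtLevel_of_goodModel` (`LiftCore.lean`): reduction on `VcSet` is a surjective ring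
homomorphism onto `κ_E'(j̄_d)` with kernel `wV`; lift the integrality equation to `R[x]`; (D2) gives
`b` in the chart; INT-Q (helper280) shows that `b` is an `A`-integral series.
-/

set_option autoImplicit false
set_option synthInstance.maxHeartbeats 400000

noncomputable section

namespace Fermat.Agent.S37.H576

open ModularCurve AlgebraicCurve HahnSeries IsLocalRing Polynomial
open Fermat.Agent.S18 Fermat.Agent.S18.Mod Fermat.Agent.S18.H576
open Fermat.Agent.S37.Red

variable {M : ℕ} {A : ValuationSubring Qb}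

/-- a series `q⁻¹ + …` over `ℤ` is a unit of `ℤ((q))` -/
theorem isUnit_of_coeff_neg_one {X : LaurentSeries ℤ} (h1 : X.coeff (-1) = 1)
    (h2 : ∀ k : ℤ, k < -1 → X.coeff k = 0) : IsUnit X := by
  have hX0 : X ≠ 0 := by
    intro h0
    rw [h0, HahnSeries.coeff_zero] at h1
    exact zero_ne_one h1
  have hord : X.order = -1 := by
    apply le_antisymm
    · exact HahnSeries.order_le_of_coeff_ne_zero (by rw [h1]; exact one_ne_zero)
    · by_contra hlt
      rw [not_le] at hlt
      exact hX0 (HahnSeries.coeff_order_eq_zero.mp (h2 _ hlt))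
  rw [HahnSeries.isUnit_iff, HahnSeries.leadingCoeff_eq, hord, h1]
  exact isUnit_one

theorem incA_intCast (X : LaurentSeries ℤ) :
    incA A (coeffMap (Int.castRingHom A) X) = coeffMap (Int.castRingHom Qb) X := by
  rw [coeffMap_coeffMap]
  exact coeffMap_congr (RingHom.ext_int _ _) X

theorem redA_intCast (X : LaurentSeries ℤ) :
    redA A (coeffMap (Int.castRingHom A) X) = coeffMap (Int.castRingHom (ResidueField A)) X := by
  rw [coeffMap_coeffMap]
  exact coeffMap_congr (RingHom.ext_int _ _) X

/-- **LEAF D3 of S37 (board v3).** -/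
theorem liftLeaf : Core.LiftLeaf := by
  intro M ℓ _ hℓ hℓM A hA x S hx X hX hmod hnorm E
  classical
  obtain ⟨𝓕, -, hGF, hT⟩ := hmod x S hx
  -- a finite set of generators of `E`
  obtain ⟨T, hTspan⟩ : (E.1.toSubalgebra.toSubmodule).FG := Module.Finite.iff_fg.mp E.2
  obtain ⟨E', V, w, -, hTE', hV, hmem⟩ := hT T
  have hEE' : E.1 ≤ E' := by
    intro e he
    have he' : e ∈ E.1.toSubalgebra.toSubmodule := he
    rw [← hTspan] at he'
    have hle : Submodule.span ℚ (T : Set Qb) ≤ E'.toSubalgebra.toSubmodule :=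
      Submodule.span_le.mpr fun a ha => hTE' a ha
    exact hle he'
  have hG : Alg.GoodModel (Lc M) (Ec M E') (Fc M E') (Rc M A E') V w x S := hGF.good _ hmem
  constructor
  · -- the finite chart
    apply liftAtLevel_mono hEE'
    have h := liftAtLevel_of_goodModel hℓ.ne_zero hA hG hV hnorm
      (coeffMap (Int.castRingHom A) X) (by rw [incA_intCast]; exact hX.coe_eq)
    rw [redA_intCast] at h
    exact h
  · -- the chart at infinity
    apply liftAtLevel_mono hEE'
    obtain ⟨u, hu⟩ := isUnit_of_coeff_neg_one hX.coeff_neg_one hX.coeff_lt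
    have hmul : X * ((u⁻¹ : (LaurentSeries ℤ)ˣ) : LaurentSeries ℤ) = 1 := by
      rw [← hu]
      exact Units.mul_inv u
    have hQ : (x : LaurentSeries Qb)⁻¹ =
        coeffMap (Int.castRingHom Qb) ((u⁻¹ : (LaurentSeries ℤ)ˣ) : LaurentSeries ℤ) := by
      apply inv_eq_of_mul_eq_one_right
      rw [hX.coe_eq, ← map_mul, hmul, map_one]
    have hk : (Core.redX A X)⁻¹ =
        coeffMap (Int.castRingHom (ResidueField A))
          ((u⁻¹ : (LaurentSeries ℤ)ˣ) : LaurentSeries ℤ) := by
      apply inv_eq_of_mul_eq_one_right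
      show coeffMap (Int.castRingHom (ResidueField A)) X * _ = 1
      rw [← map_mul, hmul, map_one]
    have h := liftAtLevel_of_goodModel hℓ.ne_zero hA (H425.goodModel_inv hG) hV hnorm
      (coeffMap (Int.castRingHom A) ((u⁻¹ : (LaurentSeries ℤ)ˣ) : LaurentSeries ℤ))
      (by rw [incA_intCast, ← hQ]; rfl)
    rw [redA_intCast, ← hk] at h
    have hcoe : ((x⁻¹ : Om M) : LaurentSeries Qb) = (x : LaurentSeries Qb)⁻¹ := rfl
    rw [hcoe] at h
    exact h

end Fermat.Agent.S37.H576
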