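import Fermat.Agent.S18.Mod.Defs
import Fermat.Agent.S18.H576.Coeff
import Fermat.Agent.S18.H602.Descent

/-!
# S37 / D3 (helper576), part 1: the graph of the reduction on the Gauss ring `VcSet M A E`

`A ⊆ Q̄` a valuation subring, `k = A/𝔪`, `E ⊆ Q̄` an intermediate field, `Ω = Om M = F_M`.

* `isIntE_iff`       : `IsIntE M A E U ↔ ∃ f ∈ Fc M E, f = U` (as series over `Q̄`);
* `redGraph M A E`   : the subring of `Ω × k((q))` of pairs `(f, c)` with `f = U₁/U₂`, `c = Ū₁/Ū₂`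
                       (`U_i` integral series over `A ∩ E` lying in `Fc`, `Ū₂ ≠ 0`);
* `redGraph_unique`  : the graph is functional;
* `redGraph_inv`     : closed under inverses of pairs with `c ≠ 0`;
* `mem_VcSet_iff_exists_redGraph` : the first projection of the graph is `VcSet M A E`.
-/

set_option autoImplicit false

noncomputable section

namespace Fermat.Agent.S37.H576

open ModularCurve AlgebraicCurve HahnSeries IsLocalRing
open Fermat.Agent.S18 Fermat.Agent.S18.Mod Fermat.Agent.S18.H576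

variable {M : ℕ} {A : ValuationSubring Qb} {E : IntermediateField ℚ Qb}

/-- `A((q)) → Q̄((q))` -/
abbrev incA (A : ValuationSubring Qb) : LaurentSeries A →+* LaurentSeries Qb :=
  coeffMap A.subtype

/-- `A((q)) → k((q))` -/
abbrev redA (A : ValuationSubring Qb) : LaurentSeries A →+* LaurentSeries (ResidueField A) :=
  coeffMap (residue A)

theorem incA_injective (A : ValuationSubring Qb) : Function.Injective (incA A) :=
  H602.coeffMap_injective A.subtype Subtype.val_injective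

theorem isIntE_iff {U : LaurentSeries A} :
    IsIntE M A E U ↔ ∃ f ∈ Fc M E, (f : LaurentSeries Qb) = incA A U := by
  constructor
  · rintro ⟨-, h⟩
    exact h
  · rintro ⟨f, hf, hfU⟩
    refine ⟨fun n => ?_, f, hf, hfU⟩
    have := coeff_mem_of_mem_Fc hf n
    rwa [hfU, coeffMap_coeff] at this

theorem isIntE_zero : IsIntE M A E 0 :=
  isIntE_iff.mpr ⟨0, zero_mem _, by rw [map_zero]; rfl⟩

theorem isIntE_one : IsIntE M A E 1 :=
  isIntE_iff.mpr ⟨1, one_mem _, by rw [map_one]; rfl⟩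

theorem isIntE_add {U W : LaurentSeries A} (hU : IsIntE M A E U) (hW : IsIntE M A E W) :
    IsIntE M A E (U + W) := by
  obtain ⟨f, hf, hfU⟩ := isIntE_iff.mp hU
  obtain ⟨g, hg, hgW⟩ := isIntE_iff.mp hW
  exact isIntE_iff.mpr ⟨f + g, add_mem hf hg, by rw [map_add, ← hfU, ← hgW]; rfl⟩

theorem isIntE_mul {U W : LaurentSeries A} (hU : IsIntE M A E U) (hW : IsIntE M A E W) :
    IsIntE M A E (U * W) := by
  obtain ⟨f, hf, hfU⟩ := isIntE_iff.mp hU
  obtain ⟨g, hg, hgW⟩ := isIntE_iff.mp hW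
  exact isIntE_iff.mpr ⟨f * g, mul_mem hf hg, by rw [map_mul, ← hfU, ← hgW]; rfl⟩

theorem isIntE_neg {U : LaurentSeries A} (hU : IsIntE M A E U) : IsIntE M A E (-U) := by
  obtain ⟨f, hf, hfU⟩ := isIntE_iff.mp hU
  exact isIntE_iff.mpr ⟨-f, neg_mem hf, by rw [map_neg, ← hfU]; rfl⟩

/-- the graph of the reduction, as a relation -/
def IsRed (M : ℕ) (A : ValuationSubring Qb) (E : IntermediateField ℚ Qb) (f : Om M)
    (c : LaurentSeries (ResidueField A)) : Prop :=
  ∃ U₁ U₂ : LaurentSeries A, IsIntE M A E U₁ ∧ IsIntE M A E U₂ ∧ redA A U₂ ≠ 0 ∧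
    (f : LaurentSeries Qb) * incA A U₂ = incA A U₁ ∧ c * redA A U₂ = redA A U₁

/-- an integral series lying in `Fc` reduces coefficientwise -/
theorem isRed_of_series {f : Om M} (hf : f ∈ Fc M E) (U : LaurentSeries A)
    (hfU : (f : LaurentSeries Qb) = incA A U) : IsRed M A E f (redA A U) :=
  ⟨U, 1, isIntE_iff.mpr ⟨f, hf, hfU⟩, isIntE_one, by rw [map_one]; exact one_ne_zero,
    by rw [map_one, mul_one, hfU], by rw [map_one, mul_one]⟩

theorem isRed_unique {f : Om M} {c c' : LaurentSeries (ResidueField A)}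
    (h : IsRed M A E f c) (h' : IsRed M A E f c') : c = c' := by
  obtain ⟨U₁, U₂, -, -, hne, hf, hc⟩ := h
  obtain ⟨W₁, W₂, -, -, hne', hf', hc'⟩ := h'
  have hUW : U₁ * W₂ = W₁ * U₂ := by
    apply incA_injective A
    rw [map_mul, map_mul, ← hf, ← hf']
    ring
  have h2 : redA A U₁ * redA A W₂ = redA A W₁ * redA A U₂ := by
    rw [← map_mul, ← map_mul, hUW]
  rw [← hc, ← hc'] at h2
  have h3 : (c - c') * (redA A U₂ * redA A W₂) = 0 := by
    linear_combination h2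
  rcases mul_eq_zero.mp h3 with h4 | h4
  · exact sub_eq_zero.mp h4
  · rcases mul_eq_zero.mp h4 with h5 | h5
    · exact absurd h5 hne
    · exact absurd h5 hne'

/-- the graph of the reduction, as a subring of `Ω × k((q))` -/
def redGraph (M : ℕ) (A : ValuationSubring Qb) (E : IntermediateField ℚ Qb) :
    Subring (Om M × LaurentSeries (ResidueField A)) where
  carrier := {p | IsRed M A E p.1 p.2}
  mul_mem' := by
    rintro ⟨f, c⟩ ⟨g, d⟩ ⟨U₁, U₂, hU₁, hU₂, hne, hf, hc⟩ ⟨W₁, W₂, hW₁, hW₂, hne', hg, hd⟩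
    refine ⟨U₁ * W₁, U₂ * W₂, isIntE_mul hU₁ hW₁, isIntE_mul hU₂ hW₂, ?_, ?_, ?_⟩
    · rw [map_mul]
      exact mul_ne_zero hne hne'
    · show ((f * g : Om M) : LaurentSeries Qb) * _ = _
      rw [map_mul, map_mul, ← hf, ← hg]
      push_cast
      ring
    · show (c * d) * _ = _
      rw [map_mul, map_mul, ← hc, ← hd]
      ring
  one_mem' := ⟨1, 1, isIntE_one, isIntE_one, by rw [map_one]; exact one_ne_zero,
    by show ((1 : Om M) : LaurentSeries Qb) * _ = _; rw [map_one]; push_cast; ring,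
    by show (1 : LaurentSeries (ResidueField A)) * _ = _; rw [map_one, mul_one]⟩
  add_mem' := by
    rintro ⟨f, c⟩ ⟨g, d⟩ ⟨U₁, U₂, hU₁, hU₂, hne, hf, hc⟩ ⟨W₁, W₂, hW₁, hW₂, hne', hg, hd⟩
    refine ⟨U₁ * W₂ + W₁ * U₂, U₂ * W₂,
      isIntE_add (isIntE_mul hU₁ hW₂) (isIntE_mul hW₁ hU₂), isIntE_mul hU₂ hW₂, ?_, ?_, ?_⟩
    · rw [map_mul]
      exact mul_ne_zero hne hne'
    · show ((f + g : Om M) : LaurentSeries Qb) * _ = _
      rw [map_add, map_mul, map_mul, map_mul, ← hf, ← hg]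
      push_cast
      ring
    · show (c + d) * _ = _
      rw [map_add, map_mul, map_mul, map_mul, ← hc, ← hd]
      ring
  zero_mem' := ⟨0, 1, isIntE_zero, isIntE_one, by rw [map_one]; exact one_ne_zero,
    by show ((0 : Om M) : LaurentSeries Qb) * _ = _; rw [map_zero]; push_cast; ring,
    by show (0 : LaurentSeries (ResidueField A)) * _ = _; rw [map_zero, zero_mul]⟩
  neg_mem' := by
    rintro ⟨f, c⟩ ⟨U₁, U₂, hU₁, hU₂, hne, hf, hc⟩
    refine ⟨-U₁, U₂, isIntE_neg hU₁, hU₂, hne, ?_, ?_⟩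
    · show ((-f : Om M) : LaurentSeries Qb) * _ = _
      rw [map_neg, ← hf]
      push_cast
      ring
    · show (-c) * _ = _
      rw [map_neg, ← hc]
      ring

theorem mem_redGraph {p : Om M × LaurentSeries (ResidueField A)} :
    p ∈ redGraph M A E ↔ IsRed M A E p.1 p.2 := Iff.rfl

theorem isRed_inv {f : Om M} {c : LaurentSeries (ResidueField A)} (h : IsRed M A E f c)
    (hc0 : c ≠ 0) : IsRed M A E f⁻¹ c⁻¹ := by
  obtain ⟨U₁, U₂, hU₁, hU₂, hne, hf, hc⟩ := h
  have hne1 : redA A U₁ ≠ 0 := by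
    rw [← hc]
    exact mul_ne_zero hc0 hne
  have hU₁0 : incA A U₁ ≠ 0 := by
    intro h0
    apply hne1
    have : U₁ = 0 := incA_injective A (by rw [h0, map_zero])
    rw [this, map_zero]
  have hf0 : (f : LaurentSeries Qb) ≠ 0 := by
    intro h0
    apply hU₁0
    rw [← hf, h0, zero_mul]
  refine ⟨U₂, U₁, hU₂, hU₁, hne1, ?_, ?_⟩
  · show ((f⁻¹ : Om M) : LaurentSeries Qb) * _ = _
    rw [← hf]
    push_cast
    rw [← mul_assoc, inv_mul_cancel₀ hf0, one_mul]
  · rw [← hc, ← mul_assoc, inv_mul_cancel₀ hc0, one_mul]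

theorem mem_VcSet_of_isRed {f : Om M} {c : LaurentSeries (ResidueField A)}
    (h : IsRed M A E f c) : f ∈ VcSet M A E := by
  obtain ⟨U₁, U₂, hU₁, hU₂, hne, hf, -⟩ := h
  refine ⟨?_, U₁, U₂, hU₁, hU₂, hne, hf⟩
  obtain ⟨g₁, hg₁, hgU₁⟩ := isIntE_iff.mp hU₁
  obtain ⟨g₂, hg₂, hgU₂⟩ := isIntE_iff.mp hU₂
  have hg₂0 : g₂ ≠ 0 := by
    intro h0
    apply hne
    have : U₂ = 0 := incA_injective A (by rw [← hgU₂, h0, map_zero]; rfl)
    rw [this, map_zero]
  have hfg : f * g₂ = g₁ := by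
    apply Subtype.ext
    show (f : LaurentSeries Qb) * (g₂ : LaurentSeries Qb) = g₁
    rw [hgU₁, hgU₂, hf]
  have : f = g₁ * g₂⁻¹ := by
    rw [← hfg, mul_assoc, mul_inv_cancel₀ hg₂0, mul_one]
  rw [this]
  exact mul_mem hg₁ (inv_mem hg₂)

theorem exists_isRed_of_mem_VcSet {f : Om M} (hf : f ∈ VcSet M A E) :
    ∃ c : LaurentSeries (ResidueField A), IsRed M A E f c := by
  obtain ⟨-, U₁, U₂, hU₁, hU₂, hne, hfU⟩ := hf
  refine ⟨redA A U₁ * (redA A U₂)⁻¹, U₁, U₂, hU₁, hU₂, hne, hfU, ?_⟩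
  rw [mul_assoc, inv_mul_cancel₀ hne, mul_one]

/-- an element of the Gauss ring whose reduction vanishes is not a unit of the Gauss ring -/
theorem inv_not_mem_VcSet_of_isRed_zero {f : Om M} (hf0 : f ≠ 0) (h : IsRed M A E f 0) :
    f⁻¹ ∉ VcSet M A E := by
  intro hinv
  obtain ⟨d, hd⟩ := exists_isRed_of_mem_VcSet hinv
  have h1 : IsRed M A E (f * f⁻¹) (0 * d) :=
    (redGraph M A E).mul_mem (x := (f, 0)) (y := (f⁻¹, d)) h hd
  rw [mul_inv_cancel₀ hf0, zero_mul] at h1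
  have h2 : IsRed M A E (1 : Om M) 1 := (redGraph M A E).one_mem
  exact zero_ne_one (isRed_unique h1 h2)

end Fermat.Agent.S37.H576
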